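import Mathlib

/-!
# S18 / piece b2.2 (GAUSS / NC) — helper187

Mathlib-only.  `K` a field, `A : ValuationSubring K` with residue field `k = A/𝔪`.
For `d ∈ A[X]` with nonzero reduction `d̄ = d mod 𝔪` which splits over `K`:

* `roots_map_residue` : the roots of `d̄` are, with multiplicities, the reductions of the roots of
  `d` lying in `A`:  `(d.map (residue A)).roots = d.roots.map (residue A)`;
* `splits_map_residue` : `d̄` splits over `k`;
* `natDegree_map_residue` : `deg d̄ = #` (roots of `d` in `A`, with multiplicity);
* `rootMultiplicity_map_residue` : if `c ∈ A` is the only root of `d` in `A` which reduces to `c̄`,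
  then `ord_{c̄} d̄ = ord_c d`;
* `rootMultiplicity_map_residue_le` : in general `ord_c d ≤ ord_{c̄} d̄`;
* `rootMultiplicity_map_residue_eq_algebraMap` : the same with `ord_c d` computed in `K[X]`;
* versions for `K` algebraically closed (`…_of_isAlgClosed`) and `exists_root_lift_of_isAlgClosed`
  (every root of `d̄` lifts to a root of `d` in `A`).
-/

set_option autoImplicit false

namespace Fermat.Agent.S18.H187

open Polynomial

variable {K : Type*} [Field K] (A : ValuationSubring K)

/-- An element of `K` outside the valuation ring has its inverse in the maximal ideal. -/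
theorem exists_inv_mem_maximalIdeal {c : K} (hc : c ∉ A) :
    ∃ t : A, (t : K) = c⁻¹ ∧ t ∈ IsLocalRing.maximalIdeal A := by
  have h1 : c⁻¹ ∈ A := (A.mem_or_inv_mem c).resolve_left hc
  refine ⟨⟨c⁻¹, h1⟩, rfl, ?_⟩
  rw [← ValuationSubring.coe_mem_nonunits_iff, ValuationSubring.inv_mem_nonunits_iff]
  exact Or.inr hc

/-- For a multiset `s` of non-integral elements, `∏ (1 - c⁻¹ X)` has coefficients in `A` and
reduces to `1`. -/
theorem exists_prod_one_sub (s : Multiset K) (hs : ∀ c ∈ s, c ∉ A) :
    ∃ P : A[X], P.map (algebraMap A K) = (s.map fun c => (1 - C c⁻¹ * X : K[X])).prod ∧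
      P.map (IsLocalRing.residue A) = 1 := by
  induction s using Multiset.induction with
  | empty => exact ⟨1, by simp, by simp⟩
  | cons c s ih =>
    obtain ⟨P, hP1, hP2⟩ := ih fun c' hc' => hs c' (Multiset.mem_cons_of_mem hc')
    obtain ⟨t, ht1, ht2⟩ := exists_inv_mem_maximalIdeal A (hs c (Multiset.mem_cons_self c s))
    refine ⟨(1 - C t * X) * P, ?_, ?_⟩
    · rw [Multiset.map_cons, Multiset.prod_cons, Polynomial.map_mul, hP1]
      congr 1
      simp only [Polynomial.map_sub, Polynomial.map_one, Polynomial.map_mul, Polynomial.map_C,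
        Polynomial.map_X]
      rw [← ht1]
      rfl
    · rw [Polynomial.map_mul, hP2, mul_one]
      have : IsLocalRing.residue A t = 0 := by
        rwa [IsLocalRing.residue_eq_zero_iff]
      simp [this]

/-- `∏ (X - c) = (∏ (-c)) · ∏ (1 - c⁻¹ X)` for nonzero `c`. -/
theorem prod_X_sub_C_eq (s : Multiset K) (hs : ∀ c ∈ s, c ≠ 0) :
    (s.map fun c => (X - C c : K[X])).prod =
      C (s.map fun c => -c).prod * (s.map fun c => (1 - C c⁻¹ * X : K[X])).prod := by
  induction s using Multiset.induction with
  | empty => simp
  | cons c s ih =>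
    have hc : c ≠ 0 := hs c (Multiset.mem_cons_self c s)
    rw [Multiset.map_cons, Multiset.prod_cons, ih fun c' hc' => hs c' (Multiset.mem_cons_of_mem hc'),
      Multiset.map_cons, Multiset.prod_cons, Multiset.map_cons, Multiset.prod_cons, C_mul]
    have : (X - C c : K[X]) = C (-c) * (1 - C c⁻¹ * X) := by
      rw [mul_sub, mul_one, ← mul_assoc, ← C_mul, neg_mul, mul_inv_cancel₀ hc]
      simp
      ring
    rw [this]
    ring

/-- A root in `K` of (the image of) `e ∈ A[X]` which lies in `A` is a root of `e` in `A`. -/
theorem mem_roots_of_mem {e : A[X]} (he : e ≠ 0) {c : K} (hc : c ∈ A)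
    (hroot : c ∈ (e.map (algebraMap A K)).roots) : (⟨c, hc⟩ : A) ∈ e.roots := by
  rw [mem_roots he]
  have h := (mem_roots'.mp hroot).2
  have hinj : Function.Injective (algebraMap A K) := Subtype.val_injective
  refine IsRoot.of_map (f := algebraMap A K) ?_ hinj
  exact h

/-- KEY LEMMA: a polynomial over `A` with nonzero reduction which splits over `K` and has no
root in `A` reduces to a nonzero constant. -/
theorem exists_map_residue_eq_C {e : A[X]} (hsplit : (e.map (algebraMap A K)).Splits)
    (hroots : e.roots = 0) (hne : e.map (IsLocalRing.residue A) ≠ 0) :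
    ∃ u : A, e.map (IsLocalRing.residue A) = C (IsLocalRing.residue A u) ∧
      IsLocalRing.residue A u ≠ 0 := by
  have he : e ≠ 0 := by
    rintro rfl
    simp at hne
  have hinj : Function.Injective (algebraMap A K) := Subtype.val_injective
  set E : K[X] := e.map (algebraMap A K) with hE
  have hnot : ∀ c ∈ E.roots, c ∉ A := by
    intro c hc hcA
    have := mem_roots_of_mem A he hcA hc
    rw [hroots] at this
    exact absurd this (Multiset.notMem_zero _)
  have hnz : ∀ c ∈ E.roots, c ≠ 0 := by
    intro c hc h0
    exact hnot c hc (h0 ▸ A.zero_mem)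
  obtain ⟨P, hP1, hP2⟩ := exists_prod_one_sub A E.roots hnot
  have hfac : E = C (E.leadingCoeff * (E.roots.map fun c => -c).prod) * P.map (algebraMap A K) := by
    conv_lhs => rw [hsplit.eq_prod_roots]
    rw [prod_X_sub_C_eq E.roots hnz, hP1, C_mul, mul_assoc]
  set a : K := E.leadingCoeff * (E.roots.map fun c => -c).prod with ha
  -- the constant coefficient of `P` is a unit of `A`
  have hP0 : IsUnit (P.coeff 0) := by
    have h1 : IsLocalRing.residue A (P.coeff 0) = 1 := by
      have := congrArg (fun q => q.coeff 0) hP2
      simpa [coeff_map] using this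
    by_contra hnu
    have : IsLocalRing.residue A (P.coeff 0) = 0 := by
      rw [IsLocalRing.residue_eq_zero_iff]
      exact hnu
    rw [this] at h1
    exact zero_ne_one h1
  obtain ⟨w, hw⟩ := hP0
  have hcoeff : (algebraMap A K (e.coeff 0)) = a * algebraMap A K (P.coeff 0) := by
    have := congrArg (fun q => q.coeff 0) hfac
    simpa [hE, coeff_map] using this
  have hwK : algebraMap A K (P.coeff 0) ≠ 0 := by
    rw [← hw]
    intro h0
    have : (w : A) = 0 := hinj (by rw [h0, map_zero])
    exact w.ne_zero this
  -- `a ∈ A`
  have haA : a = algebraMap A K (e.coeff 0 * ((w⁻¹ : Aˣ) : A)) := by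
    rw [map_mul, hcoeff, mul_assoc, ← map_mul, ← hw, Units.mul_inv, map_one, mul_one]
  set u : A := e.coeff 0 * ((w⁻¹ : Aˣ) : A) with hu
  have heq : e = C u * P := by
    apply Polynomial.map_injective (algebraMap A K) hinj
    rw [Polynomial.map_mul, Polynomial.map_C, ← haA]
    exact hfac
  refine ⟨u, ?_, ?_⟩
  · rw [heq, Polynomial.map_mul, hP2, mul_one, Polynomial.map_C]
  · intro h0
    apply hne
    rw [heq, Polynomial.map_mul, hP2, mul_one, Polynomial.map_C, h0, C_0]

/-- **Gauss lemma for roots.**  If `d ∈ A[X]` has nonzero reduction and splits over `K`, then the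
roots of the reduction are exactly (with multiplicities) the reductions of the roots of `d`
in `A`. -/
theorem roots_map_residue {d : A[X]} (hsplit : (d.map (algebraMap A K)).Splits)
    (hne : d.map (IsLocalRing.residue A) ≠ 0) :
    (d.map (IsLocalRing.residue A)).roots = d.roots.map (IsLocalRing.residue A) := by
  have hd : d ≠ 0 := by
    rintro rfl
    simp at hne
  have hinj : Function.Injective (algebraMap A K) := Subtype.val_injective
  obtain ⟨e, he⟩ := Polynomial.prod_multiset_X_sub_C_dvd d
  set Q : A[X] := (d.roots.map fun a => X - C a).prod with hQ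
  have hQe : Q * e ≠ 0 := he ▸ hd
  have he0 : e ≠ 0 := right_ne_zero_of_mul hQe
  -- `e` has no roots in `A`
  have hroots : e.roots = 0 := by
    have h1 : d.roots = Q.roots + e.roots := by
      conv_lhs => rw [he]
      exact roots_mul hQe
    rw [hQ, roots_multiset_prod_X_sub_C] at h1
    have h2 : d.roots + 0 = d.roots + e.roots := by rw [add_zero]; exact h1
    exact (add_left_cancel h2).symm
  -- `e` splits over `K`
  have hsplit_e : (e.map (algebraMap A K)).Splits := by
    refine hsplit.of_dvd ?_ ?_
    · exact (Polynomial.map_ne_zero_iff hinj).mpr hd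
    · rw [he, Polynomial.map_mul]
      exact dvd_mul_left _ _
  have hmap : d.map (IsLocalRing.residue A) =
      Q.map (IsLocalRing.residue A) * e.map (IsLocalRing.residue A) := by
    conv_lhs => rw [he]
    exact Polynomial.map_mul _
  have hne_e : e.map (IsLocalRing.residue A) ≠ 0 := by
    intro h0
    apply hne
    rw [hmap, h0, mul_zero]
  obtain ⟨u, hu1, hu2⟩ := exists_map_residue_eq_C A hsplit_e hroots hne_e
  have hQmap : Q.map (IsLocalRing.residue A) =
      ((d.roots.map (IsLocalRing.residue A)).map fun a => X - C a).prod := by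
    rw [hQ, Polynomial.map_multiset_prod, Multiset.map_map, Multiset.map_map]
    congr 1
    apply Multiset.map_congr rfl
    intro x _
    simp
  rw [hmap, roots_mul (hmap ▸ hne), hu1, roots_C, add_zero, hQmap, roots_multiset_prod_X_sub_C]

/-- The reduction of `d` splits over the residue field. -/
theorem splits_map_residue {d : A[X]} (hsplit : (d.map (algebraMap A K)).Splits)
    (hne : d.map (IsLocalRing.residue A) ≠ 0) :
    (d.map (IsLocalRing.residue A)).Splits := by
  have hd : d ≠ 0 := by
    rintro rfl
    simp at hne
  have hinj : Function.Injective (algebraMap A K) := Subtype.val_injective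
  obtain ⟨e, he⟩ := Polynomial.prod_multiset_X_sub_C_dvd d
  set Q : A[X] := (d.roots.map fun a => X - C a).prod with hQ
  have hQe : Q * e ≠ 0 := he ▸ hd
  have hroots : e.roots = 0 := by
    have h1 : d.roots = Q.roots + e.roots := by
      conv_lhs => rw [he]
      exact roots_mul hQe
    rw [hQ, roots_multiset_prod_X_sub_C] at h1
    have h2 : d.roots + 0 = d.roots + e.roots := by rw [add_zero]; exact h1
    exact (add_left_cancel h2).symm
  have hsplit_e : (e.map (algebraMap A K)).Splits := by
    refine hsplit.of_dvd ?_ ?_
    · exact (Polynomial.map_ne_zero_iff hinj).mpr hd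
    · rw [he, Polynomial.map_mul]
      exact dvd_mul_left _ _
  have hmap : d.map (IsLocalRing.residue A) =
      Q.map (IsLocalRing.residue A) * e.map (IsLocalRing.residue A) := by
    conv_lhs => rw [he]
    exact Polynomial.map_mul _
  have hne_e : e.map (IsLocalRing.residue A) ≠ 0 := by
    intro h0
    apply hne
    rw [hmap, h0, mul_zero]
  obtain ⟨u, hu1, hu2⟩ := exists_map_residue_eq_C A hsplit_e hroots hne_e
  rw [splits_iff_card_roots, roots_map_residue A hsplit hne, Multiset.card_map, hmap, hu1,
    natDegree_mul_C hu2]
  rw [hQ, Polynomial.map_multiset_prod, Multiset.map_map]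
  rw [natDegree_multiset_prod_of_monic]
  · simp
  · intro f hf
    rw [Multiset.mem_map] at hf
    obtain ⟨a, -, rfl⟩ := hf
    simp only [Function.comp_apply, Polynomial.map_sub, Polynomial.map_X, Polynomial.map_C]
    exact monic_X_sub_C _

/-- The degree of the reduction is the number of roots of `d` in `A` (with multiplicity). -/
theorem natDegree_map_residue {d : A[X]} (hsplit : (d.map (algebraMap A K)).Splits)
    (hne : d.map (IsLocalRing.residue A) ≠ 0) :
    (d.map (IsLocalRing.residue A)).natDegree = Multiset.card d.roots := by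
  rw [← splits_iff_card_roots.mp (splits_map_residue A hsplit hne), roots_map_residue A hsplit hne,
    Multiset.card_map]

/-- In general the multiplicity of a root can only go up under reduction. -/
theorem rootMultiplicity_map_residue_le {d : A[X]}
    (hne : d.map (IsLocalRing.residue A) ≠ 0) (c : A) :
    d.rootMultiplicity c ≤
      (d.map (IsLocalRing.residue A)).rootMultiplicity (IsLocalRing.residue A c) :=
  Polynomial.le_rootMultiplicity_map hne c

/-- **b2.2.**  If `c ∈ A` is the only root of `d` in `A` reducing to `c̄`, then the order of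
vanishing of `d̄` at `c̄` equals the order of vanishing of `d` at `c`. -/
theorem rootMultiplicity_map_residue {d : A[X]} (hsplit : (d.map (algebraMap A K)).Splits)
    (hne : d.map (IsLocalRing.residue A) ≠ 0) (c : A)
    (huniq : ∀ c' ∈ d.roots, IsLocalRing.residue A c' = IsLocalRing.residue A c → c' = c) :
    (d.map (IsLocalRing.residue A)).rootMultiplicity (IsLocalRing.residue A c) =
      d.rootMultiplicity c := by
  classical
  rw [← count_roots, ← count_roots, roots_map_residue A hsplit hne, Multiset.count_map,
    Multiset.count_eq_card_filter_eq]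
  congr 1
  apply Multiset.filter_congr
  intro x hx
  constructor
  · intro h
    exact (huniq x hx h.symm).symm
  · intro h
    rw [h]

/-- If no root of `d` in `A` reduces to `x̄`, then `x̄` is not a root of `d̄`. -/
theorem rootMultiplicity_map_residue_eq_zero {d : A[X]}
    (hsplit : (d.map (algebraMap A K)).Splits)
    (hne : d.map (IsLocalRing.residue A) ≠ 0) (x : IsLocalRing.ResidueField A)
    (hx : ∀ c' ∈ d.roots, IsLocalRing.residue A c' ≠ x) :
    (d.map (IsLocalRing.residue A)).rootMultiplicity x = 0 := by
  classical
  rw [← count_roots, roots_map_residue A hsplit hne, Multiset.count_eq_zero, Multiset.mem_map]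
  rintro ⟨c', hc', h⟩
  exact hx c' hc' h

/-- Multiplicities of roots in `A` can be computed in `K`. -/
theorem rootMultiplicity_algebraMap (d : A[X]) (c : A) :
    (d.map (algebraMap A K)).rootMultiplicity (algebraMap A K c) = d.rootMultiplicity c :=
  (Polynomial.eq_rootMultiplicity_map (f := algebraMap A K) Subtype.val_injective c).symm

/-- **b2.2, `K`-form.**  If `c ∈ A` is the only root of `d` in `K` lying in `A` and reducing to
`c̄`, then `ord_{c̄} d̄ = ord_c d` (the latter computed over `K`). -/
theorem rootMultiplicity_map_residue_eq_algebraMap {d : A[X]}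
    (hsplit : (d.map (algebraMap A K)).Splits)
    (hne : d.map (IsLocalRing.residue A) ≠ 0) (c : A)
    (huniq : ∀ c' : A, (d.map (algebraMap A K)).IsRoot (algebraMap A K c') →
      IsLocalRing.residue A c' = IsLocalRing.residue A c → c' = c) :
    (d.map (IsLocalRing.residue A)).rootMultiplicity (IsLocalRing.residue A c) =
      (d.map (algebraMap A K)).rootMultiplicity (algebraMap A K c) := by
  rw [rootMultiplicity_algebraMap]
  refine rootMultiplicity_map_residue A hsplit hne c fun c' hc' h => huniq c' ?_ h
  exact (isRoot_of_mem_roots hc').map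

section AlgClosed

variable [IsAlgClosed K]

theorem roots_map_residue_of_isAlgClosed {d : A[X]}
    (hne : d.map (IsLocalRing.residue A) ≠ 0) :
    (d.map (IsLocalRing.residue A)).roots = d.roots.map (IsLocalRing.residue A) :=
  roots_map_residue A (IsAlgClosed.splits _) hne

theorem splits_map_residue_of_isAlgClosed {d : A[X]}
    (hne : d.map (IsLocalRing.residue A) ≠ 0) :
    (d.map (IsLocalRing.residue A)).Splits :=
  splits_map_residue A (IsAlgClosed.splits _) hne

theorem natDegree_map_residue_of_isAlgClosed {d : A[X]}
    (hne : d.map (IsLocalRing.residue A) ≠ 0) :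
    (d.map (IsLocalRing.residue A)).natDegree = Multiset.card d.roots :=
  natDegree_map_residue A (IsAlgClosed.splits _) hne

theorem rootMultiplicity_map_residue_of_isAlgClosed {d : A[X]}
    (hne : d.map (IsLocalRing.residue A) ≠ 0) (c : A)
    (huniq : ∀ c' ∈ d.roots, IsLocalRing.residue A c' = IsLocalRing.residue A c → c' = c) :
    (d.map (IsLocalRing.residue A)).rootMultiplicity (IsLocalRing.residue A c) =
      d.rootMultiplicity c :=
  rootMultiplicity_map_residue A (IsAlgClosed.splits _) hne c huniq

theorem rootMultiplicity_map_residue_eq_algebraMap_of_isAlgClosed {d : A[X]}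
    (hne : d.map (IsLocalRing.residue A) ≠ 0) (c : A)
    (huniq : ∀ c' : A, (d.map (algebraMap A K)).IsRoot (algebraMap A K c') →
      IsLocalRing.residue A c' = IsLocalRing.residue A c → c' = c) :
    (d.map (IsLocalRing.residue A)).rootMultiplicity (IsLocalRing.residue A c) =
      (d.map (algebraMap A K)).rootMultiplicity (algebraMap A K c) :=
  rootMultiplicity_map_residue_eq_algebraMap A (IsAlgClosed.splits _) hne c huniq

/-- Every root of the reduction lifts to a root of `d` in `A` (Hensel-free, `K` algebraically
closed). -/
theorem exists_root_lift_of_isAlgClosed {d : A[X]}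
    (hne : d.map (IsLocalRing.residue A) ≠ 0) {x : IsLocalRing.ResidueField A}
    (hx : (d.map (IsLocalRing.residue A)).IsRoot x) :
    ∃ c : A, d.IsRoot c ∧ IsLocalRing.residue A c = x := by
  have h1 : x ∈ (d.map (IsLocalRing.residue A)).roots := (mem_roots hne).mpr hx
  rw [roots_map_residue_of_isAlgClosed A hne, Multiset.mem_map] at h1
  obtain ⟨c, hc, rfl⟩ := h1
  exact ⟨c, isRoot_of_mem_roots hc, rfl⟩

end AlgClosed

end Fermat.Agent.S18.H187
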